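/-
Row 37 (S43), block E0, sub-block ISO (helper291): `Tor_0` is isotropic for the Weil pairing.
Mathlib-only lemmas: the pencil identity and principal units of a valuation ring.
-/
import Mathlib

set_option autoImplicit false

namespace Fermat.Agent.S43.E0.Iso

open Polynomial

/-- **The pencil identity.**  If `∏ (1 + c (b i - 1)) ^ (p m i) = 1` for infinitely many `c`, then
`∏ b i ^ m i = 1` (positive and negative parts separated). -/
theorem pencil_key {k ι : Type*} [Field k] (s : Finset ι) (b : ι → k) (m : ι → ℤ) {p : ℕ}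
    (hp : p ≠ 0) (G : Set k) (hG : G.Infinite)
    (h : ∀ c ∈ G, (∏ i ∈ s, (1 + c * (b i - 1)) ^ (m i).toNat) ^ p =
      (∏ i ∈ s, (1 + c * (b i - 1)) ^ (-m i).toNat) ^ p) :
    ∏ i ∈ s, b i ^ (m i).toNat = ∏ i ∈ s, b i ^ (-m i).toNat := by
  classical
  set N : k[X] := ∏ i ∈ s, (1 + X * C (b i - 1)) ^ (m i).toNat with hN
  set D : k[X] := ∏ i ∈ s, (1 + X * C (b i - 1)) ^ (-m i).toNat with hD
  have eN : ∀ c : k, eval c N = ∏ i ∈ s, (1 + c * (b i - 1)) ^ (m i).toNat := by
    intro c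
    rw [hN, eval_prod]
    refine Finset.prod_congr rfl fun i _ => ?_
    simp
  have eD : ∀ c : k, eval c D = ∏ i ∈ s, (1 + c * (b i - 1)) ^ (-m i).toNat := by
    intro c
    rw [hD, eval_prod]
    refine Finset.prod_congr rfl fun i _ => ?_
    simp
  have hpow : N ^ p = D ^ p := by
    refine eq_of_infinite_eval_eq _ _ (hG.mono fun c hc => ?_)
    show eval c (N ^ p) = eval c (D ^ p)
    rw [eval_pow, eval_pow, eN, eD]
    exact h c hc
  have h1 : N ∣ D := (UniqueFactorizationMonoid.pow_dvd_pow_iff_dvd hp).1 (by rw [hpow])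
  have h2 : D ∣ N := (UniqueFactorizationMonoid.pow_dvd_pow_iff_dvd hp).1 (by rw [hpow])
  obtain ⟨w, hw⟩ := associated_of_dvd_dvd h1 h2
  obtain ⟨r, -, hr⟩ := Polynomial.isUnit_iff.1 w.isUnit
  have h0 : eval 0 N * r = eval 0 D := by
    rw [← hw, ← hr, eval_mul, eval_C]
  rw [eN, eD] at h0
  simp only [zero_mul, add_zero, one_pow, Finset.prod_const_one, one_mul] at h0
  have h3 : eval 1 N * r = eval 1 D := by
    rw [← hw, ← hr, eval_mul, eval_C]
  rw [eN, eD, h0, mul_one] at h3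
  simpa using h3

section Val

variable {K : Type*} [Field K] (𝒜 : ValuationSubring K)

/-- `z ≡ 1` modulo the maximal ideal. -/
def U1 (z : K) : Prop := 𝒜.valuation (z - 1) < 1

variable {𝒜}

theorem U1.val {z : K} (h : U1 𝒜 z) : 𝒜.valuation z = 1 := by
  have : z = 1 + (z - 1) := by ring
  rw [this]
  exact Valuation.map_one_add_of_lt _ h

theorem U1.ne_zero {z : K} (h : U1 𝒜 z) : z ≠ 0 := by
  rintro rfl
  have := h.val
  rw [map_zero] at this
  exact zero_ne_one this

theorem u1_one : U1 𝒜 (1 : K) := by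
  unfold U1
  rw [sub_self, map_zero]
  exact zero_lt_one

theorem U1.mul {z w : K} (hz : U1 𝒜 z) (hw : U1 𝒜 w) : U1 𝒜 (z * w) := by
  unfold U1
  have e : z * w - 1 = z * (w - 1) + (z - 1) := by ring
  rw [e]
  refine Valuation.map_add_lt _ ?_ hz
  rw [map_mul, hz.val, one_mul]
  exact hw

theorem U1.inv {z : K} (hz : U1 𝒜 z) : U1 𝒜 z⁻¹ := by
  unfold U1
  have h0 := hz.ne_zero
  have e : z⁻¹ - 1 = -(z⁻¹ * (z - 1)) := by field_simp; ring
  rw [e, Valuation.map_neg, map_mul, map_inv₀, hz.val, inv_one, one_mul]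
  exact hz

theorem U1.div {z w : K} (hz : U1 𝒜 z) (hw : U1 𝒜 w) : U1 𝒜 (z / w) := by
  rw [div_eq_mul_inv]
  exact hz.mul hw.inv

theorem U1.pow {z : K} (hz : U1 𝒜 z) (n : ℕ) : U1 𝒜 (z ^ n) := by
  induction n with
  | zero => rw [pow_zero]; exact u1_one
  | succ n ih => rw [pow_succ]; exact ih.mul hz

theorem U1.zpow {z : K} (hz : U1 𝒜 z) (n : ℤ) : U1 𝒜 (z ^ n) := by
  cases n with
  | ofNat n => simpa using hz.pow n
  | negSucc n => rw [zpow_negSucc]; exact (hz.pow _).inv

theorem u1_prod {ι : Type*} (s : Finset ι) (f : ι → K) (h : ∀ i ∈ s, U1 𝒜 (f i)) :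
    U1 𝒜 (∏ i ∈ s, f i) := by
  classical
  induction s using Finset.induction_on with
  | empty => rw [Finset.prod_empty]; exact u1_one
  | insert a s ha ih =>
    rw [Finset.prod_insert ha]
    exact (h a (Finset.mem_insert_self a s)).mul
      (ih fun i hi => h i (Finset.mem_insert_of_mem hi))

/-- a `p`-th root of unity which is `≡ 1` is `1` (residue characteristic prime to `p`). -/
theorem eq_one_of_u1_of_pow {p : ℕ} (hpA : 𝒜.valuation (p : K) = 1) {e : K} (he : U1 𝒜 e)
    (hep : e ^ p = 1) : e = 1 := by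
  have h1 : (e - 1) * ∑ i ∈ Finset.range p, e ^ i = 0 := by
    rw [mul_comm, geom_sum_mul, hep, sub_self]
  have h2 : 𝒜.valuation (∑ i ∈ Finset.range p, e ^ i - (p : K)) < 1 := by
    have e1 : ∑ i ∈ Finset.range p, e ^ i - (p : K) = ∑ i ∈ Finset.range p, (e ^ i - 1) := by
      rw [Finset.sum_sub_distrib]
      simp
    rw [e1]
    exact Valuation.map_sum_lt _ one_ne_zero fun i _ => he.pow i
  have h3 : ∑ i ∈ Finset.range p, e ^ i ≠ 0 := by
    intro h0
    rw [h0, zero_sub, Valuation.map_neg, hpA] at h2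
    exact lt_irrefl _ h2
  rcases mul_eq_zero.1 h1 with h | h
  · exact sub_eq_zero.1 h
  · exact absurd h h3

end Val

end Fermat.Agent.S43.E0.Iso
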