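/-
Row 37 (S43), block E0, sub-block ISO (helper291).  THE ABSTRACT ISOTROPY THEOREM.

`K` algebraically closed of characteristic zero with a valuation ring `𝒜` (residue characteristic
prime to `p`, infinite residue field), `F` a function field over `K`.  `(D_u, u)`, `(D', v')`
representatives of two `p`-torsion classes, `S` a set of places ("the tubes met by `D_u`") such that
* `supp D_u ⊆ S`;
* off `S`, `u` is a unit `≡ 1`;
* on `S`, `v'` is a unit, with finitely many residues.
Then `e_p = 1`.  Proof: `e = u(D') / v'(D_u)`, `u(D') ≡ 1`; for the pencil `f_c = 1 + c (v' - 1)` Weil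
reciprocity gives `f_c(D_u) ^ p = u(div f_c) ≡ 1` for almost all residues of `c`; `pencil_key`.
-/
import Fermat.Agent.S19.Weil.Pairing
import Fermat.Agent.S43.E0.Iso.Poly

set_option autoImplicit false

noncomputable section

namespace Fermat.Agent.S43.E0.Iso

open AlgebraicCurve Fermat.Agent.S24.FF Fermat.Agent.S27 Fermat.Agent.S19.Weil

variable {K F : Type*} [Field K] [Field F] [Algebra K F]

/-- `f(D) ≡ 1` if `f(P) ≡ 1` on the support of `D`. -/
theorem u1_evDiv {𝒜 : ValuationSubring K} {f : F} {D : Divisor K F}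
    (h : ∀ P, D P ≠ 0 → U1 𝒜 (ev P f)) : U1 𝒜 (evDiv f D) := by
  unfold evDiv Finsupp.prod
  exact u1_prod _ _ fun P hP => (h P (Finsupp.mem_support_iff.1 hP)).zpow _

theorem zpow_eq_toNat_div (z : K) (k : ℤ) :
    z ^ k = z ^ k.toNat / z ^ (-k).toNat := by
  rcases le_total 0 k with h | h
  · have h1 : (-k).toNat = 0 := Int.toNat_eq_zero.2 (by omega)
    rw [h1, pow_zero, div_one, ← zpow_natCast, Int.toNat_of_nonneg h]
  · have h1 : k.toNat = 0 := Int.toNat_eq_zero.2 h
    rw [h1, pow_zero, one_div, ← zpow_natCast, Int.toNat_of_nonneg (by omega), zpow_neg, inv_inv]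

variable [IsAlgClosed K] [CharZero K] [IsFF1 K F] [NonConst K F]

/-- the `p`-th power of the pairing is `1` -/
theorem weilRep_pow_eq_one {p : ℕ} {x y : Pic0 K F} (a : TorsRep p x) (b : TorsRep p y)
    (h : Disjoint a.D.support b.D.support) : weilRep a b ^ p = 1 := by
  have ua := a.unitOn b h
  have ub := b.unitOn a h.symm
  have hd : Disjoint ((p : ℤ) • a.D).support ((p : ℤ) • b.D).support :=
    Finset.disjoint_of_subset_left Finsupp.support_smul
      (Finset.disjoint_of_subset_right Finsupp.support_smul h)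
  have hr := weil_reciprocity a.div b.div hd
  rw [evDiv_zsmul ua, evDiv_zsmul ub, zpow_natCast, zpow_natCast] at hr
  rw [weilRep, div_pow, hr, div_self (pow_ne_zero _ ub.evDiv_ne_zero)]

/-- **The abstract isotropy theorem.** -/
theorem weil_eq_one_of_tubes (𝒜 : ValuationSubring K) {p : ℕ} (hp : 0 < p)
    (hpA : 𝒜.valuation (p : K) = 1) [Infinite (IsLocalRing.ResidueField 𝒜)]
    {x y : Pic0 K F} (a : TorsRep p x) (b : TorsRep p y) (S : Set (Place K F))
    (h1 : ∀ Q, a.D Q ≠ 0 → Q ∈ S)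
    (h2 : ∀ P, P ∉ S → P.ord a.f = 0 ∧ 𝒜.valuation (ev P a.f - 1) < 1)
    (h3 : ∀ P ∈ S, P.ord b.f = 0 ∧ 𝒜.valuation (ev P b.f) = 1)
    (T : Finset 𝒜) (h4 : ∀ P ∈ S, ∃ t ∈ T, 𝒜.valuation (ev P b.f - (t : K)) < 1) :
    weil p x y = 1 := by
  classical
  have hpZ : (p : ℤ) ≠ 0 := by exact_mod_cast hp.ne'
  -- supports
  have hbS : ∀ P ∈ S, b.D P = 0 := by
    intro P hP
    have := b.div.2 P
    rw [(h3 P hP).1, Finsupp.smul_apply, smul_eq_mul] at this
    exact (mul_eq_zero.1 this).resolve_left hpZ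
  have hdisj : Disjoint a.D.support b.D.support :=
    Pairing.disjoint_iff.2 fun Q hQ => hbS Q (h1 Q hQ)
  rw [weil_eq hp a b hdisj]
  refine eq_one_of_u1_of_pow (𝒜 := 𝒜) hpA ?_ (weilRep_pow_eq_one a b hdisj)
  -- (B)
  have hB : U1 𝒜 (evDiv a.f b.D) :=
    u1_evDiv fun P hP => (h2 P fun hS => hP (hbS P hS)).2
  refine hB.div ?_
  -- the residues
  set k := IsLocalRing.ResidueField 𝒜 with hk
  let res : 𝒜 →+* k := IsLocalRing.residue 𝒜
  have hres0 : ∀ z : 𝒜, res z = 0 ↔ 𝒜.valuation (z : K) < 1 := by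
    intro z
    rw [IsLocalRing.residue_eq_zero_iff, ← ValuationSubring.valuation_lt_one_iff]
  have hmemS : ∀ Q ∈ S, ev Q b.f ∈ 𝒜 := fun Q hQ =>
    (𝒜.valuation_le_one_iff _).1 (h3 Q hQ).2.le
  let β : Place K F → 𝒜 := fun Q => if h : ev Q b.f ∈ 𝒜 then ⟨ev Q b.f, h⟩ else 1
  have hβ : ∀ Q ∈ S, (β Q : K) = ev Q b.f := by
    intro Q hQ
    simp only [β, dif_pos (hmemS Q hQ)]
  set s := a.D.support with hs
  have hsS : ∀ Q ∈ s, Q ∈ S := fun Q hQ => h1 Q (Finsupp.mem_support_iff.1 hQ)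
  -- the numerators and denominators
  let z : 𝒜 → Place K F → 𝒜 := fun c Q => 1 + c * (β Q - 1)
  -- the good residues
  let G : Set k := {c | ∀ t ∈ T, 1 + c * (res t - 1) ≠ 0}
  have hG : G.Infinite := by
    have hfin : (Gᶜ).Finite := by
      have : Gᶜ ⊆ ⋃ t ∈ T, {c : k | 1 + c * (res t - 1) = 0} := by
        intro c hc
        simp only [G, Set.mem_compl_iff, Set.mem_ofPred_eq, not_forall, not_not] at hc
        obtain ⟨t, ht, h⟩ := hc
        exact Set.mem_biUnion ht h
      refine Set.Finite.subset (Set.Finite.biUnion T.finite_toSet fun t _ => ?_) this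
      refine Set.Subsingleton.finite ?_
      intro c hc c' hc'
      have e1 : 1 + c * (res t - 1) = 0 := hc
      have e2 : 1 + c' * (res t - 1) = 0 := hc'
      have hne : res t - 1 ≠ 0 := by
        intro h0
        rw [h0, mul_zero, add_zero] at e1
        exact one_ne_zero e1
      have : (c - c') * (res t - 1) = 0 := by linear_combination e1 - e2
      exact sub_eq_zero.1 ((mul_eq_zero.1 this).resolve_right hne)
    exact Set.infinite_of_finite_compl hfin
  -- on `S`, the pencil is a unit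
  have hpen : ∀ c : 𝒜, res c ∈ G → ∀ P ∈ S,
      𝒜.valuation (1 + (c : K) * (ev P b.f - 1)) = 1 := by
    intro c hc P hP
    obtain ⟨t, ht, htP⟩ := h4 P hP
    have h5 : ¬ 𝒜.valuation ((1 + c * (t - 1) : 𝒜) : K) < 1 := by
      rw [← hres0]
      simpa using hc t ht
    have h6 : 𝒜.valuation ((1 + c * (t - 1) : 𝒜) : K) = 1 :=
      le_antisymm ((𝒜.valuation_le_one_iff _).2 (1 + c * (t - 1) : 𝒜).2) (not_lt.1 h5)
    have e : 1 + (c : K) * (ev P b.f - 1) =
        ((1 + c * (t - 1) : 𝒜) : K) + (c : K) * (ev P b.f - t) := by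
      push_cast
      ring
    rw [e, Valuation.map_add_eq_of_lt_left, h6]
    rw [h6, map_mul]
    exact lt_of_le_of_lt (mul_le_of_le_one_left' ((𝒜.valuation_le_one_iff _).2 c.2)) htP
  -- (C)
  have hC : ∀ c : 𝒜, res c ∈ G →
      U1 𝒜 ((∏ Q ∈ s, (1 + (c : K) * (ev Q b.f - 1)) ^ a.D Q) ^ p) := by
    intro c hc
    rcases s.eq_empty_or_nonempty with hemp | ⟨Q₀, hQ₀⟩
    · rw [hemp, Finset.prod_empty, one_pow]
      exact u1_one
    set f : F := 1 + algebraMap K F c * (b.f - 1) with hf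
    have hevS : ∀ P ∈ S, 0 ≤ P.ord f ∧ ev P f = 1 + (c : K) * (ev P b.f - 1) := by
      intro P hP
      have hv : IsVal P b.f (ev P b.f) := isVal_ev (h3 P hP).1.ge
      have h7 : IsVal P f (1 + (c : K) * (ev P b.f - 1)) := by
        have h8 : IsVal P (1 : F) 1 := by
          have := isVal_algebraMap (F := F) P (1 : K)
          rwa [map_one] at this
        exact h8.add ((isVal_algebraMap P _).mul (hv.sub h8))
      exact ⟨h7.ord_nonneg, ev_eq_of_isVal h7⟩
    have hevne : ∀ P ∈ S, ev P f ≠ 0 := by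
      intro P hP h0
      have := hpen c hc P hP
      rw [← (hevS P hP).2, h0, map_zero] at this
      exact zero_ne_one this
    have hf0 : f ≠ 0 := by
      intro h0
      apply hevne Q₀ (hsS Q₀ hQ₀)
      rw [h0]
      have := ev_algebraMap (F := F) Q₀ (0 : K)
      rwa [map_zero] at this
    have hordS : ∀ P ∈ S, P.ord f = 0 := by
      intro P hP
      by_contra hne
      apply hevne P hP
      rw [ev_eq_zero_iff (hevS P hP).1]
      exact Or.inr (lt_of_le_of_ne (hevS P hP).1 (Ne.symm hne))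
    obtain ⟨Df, hDf⟩ := exists_isDivOf (K := K) f hf0
    have hDfS : ∀ P, Df P ≠ 0 → P ∉ S := by
      intro P hP hS
      exact hP (by rw [hDf.2 P, hordS P hS])
    have hd : Disjoint Df.support ((p : ℤ) • a.D).support := by
      refine Finset.disjoint_of_subset_right Finsupp.support_smul ?_
      rw [Pairing.disjoint_iff]
      intro P hP
      by_contra hne
      exact hDfS P hP (h1 P hne)
    have hr := weil_reciprocity hDf a.div hd
    have uf : UnitOn f a.D := ⟨hf0, fun P hP => hordS P (h1 P hP)⟩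
    rw [evDiv_zsmul uf, zpow_natCast] at hr
    have e1 : evDiv f a.D = ∏ Q ∈ s, (1 + (c : K) * (ev Q b.f - 1)) ^ a.D Q := by
      rw [evDiv_eq_prod f (s := s) subset_rfl]
      exact Finset.prod_congr rfl fun Q hQ => by rw [(hevS Q (hsS Q hQ)).2]
    rw [← e1, hr]
    exact u1_evDiv fun P hP => (h2 P (hDfS P hP)).2
  -- (D)
  have hzK : ∀ (c : 𝒜) (Q : Place K F), Q ∈ s →
      ((z c Q : 𝒜) : K) = 1 + (c : K) * (ev Q b.f - 1) := by
    intro c Q hQ
    simp only [z]
    push_cast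
    rw [hβ Q (hsS Q hQ)]
  have hkey := pencil_key s (fun Q => res (β Q)) (fun Q => a.D Q) hp.ne' G hG (by
    intro cb hcb
    obtain ⟨c, rfl⟩ := IsLocalRing.residue_surjective (R := 𝒜) cb
    have hc : res c ∈ G := hcb
    have hU := hC c hc
    set Nn : 𝒜 := ∏ Q ∈ s, z c Q ^ (a.D Q).toNat with hNn
    set Dd : 𝒜 := ∏ Q ∈ s, z c Q ^ (-a.D Q).toNat with hDd
    have hzval : ∀ Q ∈ s, 𝒜.valuation ((z c Q : 𝒜) : K) = 1 := fun Q hQ => by
      rw [hzK c Q hQ]
      exact hpen c hc Q (hsS Q hQ)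
    have hDval : 𝒜.valuation (Dd : K) = 1 := by
      rw [hDd]
      push_cast
      rw [map_prod]
      exact Finset.prod_eq_one fun Q hQ => by rw [map_pow, hzval Q hQ, one_pow]
    have hD0 : (Dd : K) ≠ 0 := by
      intro h0
      rw [h0, map_zero] at hDval
      exact zero_ne_one hDval
    have e2 : ∏ Q ∈ s, (1 + (c : K) * (ev Q b.f - 1)) ^ a.D Q = (Nn : K) / (Dd : K) := by
      rw [hNn, hDd]
      push_cast
      rw [← Finset.prod_div_distrib]
      refine Finset.prod_congr rfl fun Q hQ => ?_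
      rw [hzK c Q hQ]
      exact zpow_eq_toNat_div _ _
    rw [e2] at hU
    have h9 : 𝒜.valuation (((Nn ^ p - Dd ^ p : 𝒜)) : K) < 1 := by
      have e3 : (((Nn ^ p - Dd ^ p : 𝒜)) : K) = (Dd : K) ^ p * (((Nn : K) / (Dd : K)) ^ p - 1) := by
        push_cast
        rw [div_pow, mul_sub, mul_one, mul_div_cancel₀ _ (pow_ne_zero p hD0)]
      rw [e3, map_mul, map_pow, hDval, one_pow, one_mul]
      exact hU
    rw [← hres0, map_sub, map_pow, map_pow, sub_eq_zero] at h9
    have eN : res Nn = ∏ Q ∈ s, (1 + res c * (res (β Q) - 1)) ^ (a.D Q).toNat := by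
      rw [hNn, map_prod]
      exact Finset.prod_congr rfl fun Q _ => by simp [z]
    have eD : res Dd = ∏ Q ∈ s, (1 + res c * (res (β Q) - 1)) ^ (-a.D Q).toNat := by
      rw [hDd, map_prod]
      exact Finset.prod_congr rfl fun Q _ => by simp [z]
    rw [eN, eD] at h9
    exact h9)
  -- conclusion
  set N1 : 𝒜 := ∏ Q ∈ s, β Q ^ (a.D Q).toNat with hN1
  set D1 : 𝒜 := ∏ Q ∈ s, β Q ^ (-a.D Q).toNat with hD1
  have hβval : ∀ Q ∈ s, 𝒜.valuation ((β Q : 𝒜) : K) = 1 := fun Q hQ => by
    rw [hβ Q (hsS Q hQ)]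
    exact (h3 Q (hsS Q hQ)).2
  have hD1val : 𝒜.valuation (D1 : K) = 1 := by
    rw [hD1]
    push_cast
    rw [map_prod]
    exact Finset.prod_eq_one fun Q hQ => by rw [map_pow, hβval Q hQ, one_pow]
  have hD10 : (D1 : K) ≠ 0 := by
    intro h0
    rw [h0, map_zero] at hD1val
    exact zero_ne_one hD1val
  have e4 : evDiv b.f a.D = (N1 : K) / (D1 : K) := by
    rw [evDiv_eq_prod b.f (s := s) subset_rfl, hN1, hD1]
    push_cast
    rw [← Finset.prod_div_distrib]
    refine Finset.prod_congr rfl fun Q hQ => ?_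
    rw [hβ Q (hsS Q hQ)]
    exact zpow_eq_toNat_div _ _
  have h10 : res (N1 - D1) = 0 := by
    rw [map_sub, hN1, hD1, map_prod, map_prod, sub_eq_zero]
    simpa using hkey
  rw [hres0] at h10
  rw [e4]
  unfold U1
  have e5 : (N1 : K) / (D1 : K) - 1 = ((N1 - D1 : 𝒜) : K) / (D1 : K) := by
    push_cast
    field_simp
  rw [e5, map_div₀, hD1val, div_one]
  exact h10

end Fermat.Agent.S43.E0.Iso
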