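/-
Row 37 (S43), block E0, sub-block ISO (helper291): **(O2) the moving lemma**.

`F` a field, `R i` a finite family of integrally closed local subrings of `F` which is "semilocal":
(sep) there are `e i ≡ δ_ij` modulo `rad (R j)`, (den) every element of `R i` has a denominator which
is a unit at `i` and lies in all the `R j`.  If `v` is locally a unit times a `p`-th power,
`v / g i ^ p ∈ (R i)ˣ`, then there is ONE `h` with `v * h ^ p ∈ (R i)ˣ` for all `i`.
-/
import Mathlib
import Fermat.Agent.S36.BP.Defs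
import Fermat.Agent.S36.BP.Rad
import Fermat.Agent.S36.BP.Loc.Basic

set_option autoImplicit false
set_option linter.style.haveILetI false

noncomputable section

namespace Fermat.Agent.S43.E0.Iso

open Fermat.Agent.S36.BP

variable {F : Type*} [Field F]

/-- a `p`-th root of an element of an integrally closed subring lies in the subring. -/
theorem mem_of_pow_mem {R : Subring F} (hic : ∀ y : F, IsIntegral R y → y ∈ R) {p : ℕ} (hp : 0 < p)
    {y : F} (hy : y ^ p ∈ R) : y ∈ R := by
  apply hic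
  refine IsIntegral.of_pow hp ?_
  have : y ^ p = algebraMap R F ⟨y ^ p, hy⟩ := rfl
  rw [this]
  exact isIntegral_algebraMap

/-- finite sums of nonunits are nonunits. -/
theorem sum_mem_rad {R : Subring F} (hadd : ∀ a ∈ rad R, ∀ b ∈ rad R, a + b ∈ rad R)
    {ι : Type*} (s : Finset ι) (f : ι → F) (hf : ∀ i ∈ s, f i ∈ rad R) :
    ∑ i ∈ s, f i ∈ rad R := by
  classical
  induction s using Finset.induction_on with
  | empty => simpa using zero_mem_rad R
  | insert a s ha ih =>
    rw [Finset.sum_insert ha]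
    exact hadd _ (hf a (Finset.mem_insert_self _ _)) _
      (ih fun i hi => hf i (Finset.mem_insert_of_mem hi))

/-- unit + nonunit = unit. -/
theorem rUnit_add_of_rad {R : Subring F} (hadd : ∀ a ∈ rad R, ∀ b ∈ rad R, a + b ∈ rad R)
    {s ρ : F} (hs : RUnit R s) (hρ : ρ ∈ rad R) : RUnit R (s + ρ) := by
  rcases runit_or_mem_rad (R.add_mem hs.mem hρ.1) with h | h
  · exact h
  · exfalso
    have := hadd _ h _ (neg_mem_rad hρ)
    rw [add_neg_cancel_right] at this
    exact this.2 hs

/-- **(O2) The moving lemma**, abstract form. -/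
theorem move_abs {ι : Type*} [Finite ι] (R : ι → Subring F)
    (hadd : ∀ i, ∀ a ∈ rad (R i), ∀ b ∈ rad (R i), a + b ∈ rad (R i))
    (hic : ∀ i, ∀ y : F, IsIntegral (R i) y → y ∈ R i)
    (hsep : ∀ i, ∃ e : F, e - 1 ∈ rad (R i) ∧ ∀ j, j ≠ i → e ∈ rad (R j))
    (hden : ∀ i, ∀ ε ∈ R i, ∃ s, RUnit (R i) s ∧ ∀ j, s ∈ R j ∧ s * ε ∈ R j)
    {p : ℕ} (hp : 0 < p) {v : F}
    (hu : ∀ i, ∃ g : F, g ≠ 0 ∧ RUnit (R i) (v / g ^ p)) :
    ∃ h : F, h ≠ 0 ∧ ∀ i, RUnit (R i) (v * h ^ p) := by
  classical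
  haveI := Fintype.ofFinite ι
  rcases isEmpty_or_nonempty ι with hι | hι
  · exact ⟨1, one_ne_zero, fun i => (hι.false i).elim⟩
  choose e he1 he0 using hsep
  choose g hg hu using hu
  choose s hs hsj using fun i => hden i _ (hu i).mem
  -- the key integrality
  have hA : ∀ i j, s i / g i * g j ∈ R j := by
    intro i j
    apply mem_of_pow_mem (hic j) hp
    have hv : v ≠ 0 := fun h => (hu j).1 (by rw [h, zero_div])
    have e1 : (s i / g i * g j) ^ p = s i ^ (p - 1) * (s i * (v / g i ^ p)) * (v / g j ^ p)⁻¹ := by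
      obtain ⟨k, rfl⟩ := Nat.exists_eq_succ_of_ne_zero hp.ne'
      have h1 := hg i
      have h2 := hg j
      simp only [Nat.succ_sub_one]
      rw [mul_pow, div_pow, pow_succ (s i) k]
      field_simp
    rw [e1]
    exact (R j).mul_mem ((R j).mul_mem ((R j).pow_mem (hsj i j).1 _) (hsj i j).2) (hu j).inv_mem
  have hB : ∀ j, RUnit (R j) ((∑ i, e i * (s i / g i)) * g j) := by
    intro j
    have e2 : (∑ i, e i * (s i / g i)) * g j =
        s j + ((e j - 1) * s j + ∑ i ∈ Finset.univ.erase j, e i * (s i / g i * g j)) := by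
      rw [Finset.sum_mul, ← Finset.add_sum_erase _ _ (Finset.mem_univ j)]
      have h2 := hg j
      have : e j * (s j / g j) * g j = s j + (e j - 1) * s j := by
        field_simp
        ring
      rw [this, add_assoc]
      congr 2
      exact Finset.sum_congr rfl fun i _ => by ring
    rw [e2]
    refine rUnit_add_of_rad (hadd j) (hs j) (hadd j _ ?_ _ ?_)
    · rw [mul_comm]
      exact mul_mem_rad (hs j).mem (he1 j)
    · refine sum_mem_rad (hadd j) _ _ fun i hi => ?_
      rw [mul_comm]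
      exact mul_mem_rad (hA i j) (he0 i j (Finset.ne_of_mem_erase hi).symm)
  refine ⟨∑ i, e i * (s i / g i), ?_, fun j => ?_⟩
  · obtain ⟨j⟩ := hι
    exact left_ne_zero_of_mul (hB j).1
  · have e3 : v * (∑ i, e i * (s i / g i)) ^ p =
        v / g j ^ p * ((∑ i, e i * (s i / g i)) * g j) ^ p := by
      have h2 := hg j
      rw [mul_pow]
      field_simp
    rw [e3]
    exact (hu j).mul ((hB j).pow p)

/-- **(O2)** for the localisations of one subring `B` at finitely many maximal ideals. -/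
theorem move_locSub (B : Subring F) (hB : ∀ y : F, IsIntegral B y → y ∈ B)
    {ι : Type*} [Finite ι] (𝔫 : ι → Ideal B) (hmax : ∀ i, (𝔫 i).IsMaximal)
    (hinj : Function.Injective 𝔫) {p : ℕ} (hp : 0 < p) {v : F}
    (hu : ∀ i, ∃ g : F, g ≠ 0 ∧ RUnit (haveI := (hmax i).isPrime; locSub B (𝔫 i)) (v / g ^ p)) :
    ∃ h : F, h ≠ 0 ∧ ∀ i, RUnit (haveI := (hmax i).isPrime; locSub B (𝔫 i)) (v * h ^ p) := by
  classical
  haveI : ∀ i, (𝔫 i).IsPrime := fun i => (hmax i).isPrime
  refine move_abs (fun i => locSub B (𝔫 i)) (fun i a ha b hb => add_mem_rad_locSub ha hb)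
    (fun i => mem_locSub_of_isIntegral hB) (fun i => ?_) (fun i ε hε => ?_) hp hu
  · have hcop : Pairwise fun j k => IsCoprime (𝔫 j) (𝔫 k) := fun j k hjk =>
      (Ideal.isCoprime_iff_sup_eq.2 ((hmax j).coprime_of_ne (hmax k) (hinj.ne hjk)))
    obtain ⟨r, hr⟩ := Ideal.exists_forall_sub_mem_ideal hcop (fun j => if j = i then 1 else 0)
    refine ⟨(r : F), ?_, fun j hj => ?_⟩
    · have := hr i
      rw [if_pos rfl] at this
      exact coe_mem_rad_locSub this
    · have := hr j
      rw [if_neg hj, sub_zero] at this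
      exact coe_mem_rad_locSub this
  · obtain ⟨a, s, hs, e⟩ := hε
    refine ⟨(s : F), rUnit_locSub_iff.2 ⟨s, 1, hs, fun h => (hmax i).ne_top
      ((Ideal.eq_top_iff_one _).2 h), by simp⟩, fun j => ⟨le_locSub s.2, ?_⟩⟩
    rw [mul_comm, e]
    exact le_locSub a.2

end Fermat.Agent.S43.E0.Iso

end
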