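/-
Row 37 (S43), block E0, sub-block ISO (helper291): **the abstract form of (O)**.

`K` algebraically closed of characteristic zero with a valuation ring `𝒜`, `F` a function field over
`K`; `F₀ → F` a model of `F` over a subfield `K₀` of `K`, `Pts` a set of local subrings of `F₀` (the
closed points of the special fibre of a proper regular model over `A₀ = 𝒜 ∩ K₀`).

If every place of `F` has a unique centre in `Pts`, `u ≡ 1` at every point which is not the centre of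
a zero or a pole of `u`, and `v` is locally a unit times a `p`-th power, then the classes of `u` and
`v` are orthogonal for the Weil pairing.
-/
import Fermat.Agent.S43.E0.Iso.Abs
import Fermat.Agent.S43.E0.Iso.Move

set_option autoImplicit false
set_option linter.unusedSectionVars false

noncomputable section

namespace Fermat.Agent.S43.E0.Iso

open AlgebraicCurve Fermat.Agent.S24.FF Fermat.Agent.S27 Fermat.Agent.S19.Weil Fermat.Agent.S36.BP

variable {K F : Type*} [Field K] [Field F] [Algebra K F]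
variable {F₀ : Type*} [Field F₀]

/-- The place `P` of `F` is centred at the local subring `R` of `F₀`. -/
def Cen (𝒜 : ValuationSubring K) (bc : F₀ →+* F) (P : Place K F) (R : Subring F₀) : Prop :=
  (∀ r ∈ R, 0 ≤ P.ord (bc r) ∧ ev P (bc r) ∈ 𝒜) ∧ ∀ r ∈ rad R, 𝒜.valuation (ev P (bc r)) < 1

variable [IsAlgClosed K] [CharZero K] [IsFF1 K F] [NonConst K F]

theorem Cen.unit {𝒜 : ValuationSubring K} {bc : F₀ →+* F} {P : Place K F} {R : Subring F₀}
    (h : Cen 𝒜 bc P R) {r : F₀} (hr : RUnit R r) :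
    P.ord (bc r) = 0 ∧ 𝒜.valuation (ev P (bc r)) = 1 := by
  have h0 : bc r ≠ 0 := (map_ne_zero bc).2 hr.1
  obtain ⟨h1, h2⟩ := h.1 r hr.mem
  obtain ⟨h3, h4⟩ := h.1 r⁻¹ hr.inv_mem
  rw [map_inv₀, P.ord_inv] at h3
  have ho : P.ord (bc r) = 0 := le_antisymm (by omega) h1
  refine ⟨ho, ?_⟩
  rw [map_inv₀, ev_inv h0 ho] at h4
  have h5 := (𝒜.valuation_le_one_iff _).2 h2
  have h6 := (𝒜.valuation_le_one_iff _).2 h4
  have hne : ev P (bc r) ≠ 0 := ev_ne_zero_of_ord_eq_zero h0 ho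
  rw [map_inv₀] at h6
  refine le_antisymm h5 ?_
  have hv0 : 𝒜.valuation (ev P (bc r)) ≠ 0 := (Valuation.ne_zero_iff _).2 hne
  exact (inv_le_one₀ (zero_lt_iff.2 hv0)).1 h6

theorem Cen.sub_lt {𝒜 : ValuationSubring K} {bc : F₀ →+* F} {P : Place K F} {R : Subring F₀}
    (h : Cen 𝒜 bc P R) {r s : F₀} (hr : r ∈ R) (hs : s ∈ R) (hrs : r - s ∈ rad R) :
    𝒜.valuation (ev P (bc r) - ev P (bc s)) < 1 := by
  have := h.2 _ hrs
  rwa [map_sub, ev_sub (h.1 r hr).1 (h.1 s hs).1] at this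

/-- **(O), abstract form.** -/
theorem weil_eq_one_of_centres (𝒜 : ValuationSubring K) {p : ℕ} (hp : 0 < p)
    (hpA : 𝒜.valuation (p : K) = 1) [Infinite (IsLocalRing.ResidueField 𝒜)]
    {K₀ : Type*} [Field K₀] [Algebra K₀ F₀] [Algebra K₀ K] (A₀ : ValuationSubring K₀)
    (hA₀ : ∀ a ∈ A₀, algebraMap K₀ K a ∈ 𝒜)
    (bc : F₀ →+* F) (hbc : ∀ a : K₀, bc (algebraMap K₀ F₀ a) = algebraMap K F (algebraMap K₀ K a))
    (Pts : Set (Subring F₀))
    (C1 : ∀ P : Place K F, ∃ R ∈ Pts, Cen 𝒜 bc P R)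
    (C2 : ∀ (P : Place K F) (R R' : Subring F₀), R ∈ Pts → R' ∈ Pts → Cen 𝒜 bc P R →
      Cen 𝒜 bc P R' → R = R')
    (res : ∀ R ∈ Pts, ∀ r ∈ R, ∃ a ∈ A₀, r - algebraMap K₀ F₀ a ∈ rad R)
    (cst : ∀ R ∈ Pts, ∀ a ∈ A₀, algebraMap K₀ F₀ a ∈ R)
    (move : ∀ (Sg : Finset (Subring F₀)) (v : F₀), (∀ R ∈ Sg, R ∈ Pts) →
      (∀ R ∈ Sg, ∃ g : F₀, g ≠ 0 ∧ RUnit R (v / g ^ p)) →
      ∃ h : F₀, h ≠ 0 ∧ ∀ R ∈ Sg, RUnit R (v * h ^ p))
    {u v : F₀}
    (U : ∀ R ∈ Pts, (∀ P : Place K F, Cen 𝒜 bc P R → P.ord (bc u) = 0) → u - 1 ∈ rad R)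
    (F3 : ∀ R ∈ Pts, ∃ g : F₀, g ≠ 0 ∧ RUnit R (v / g ^ p))
    {x y : Pic0 K F} (a : TorsRep p x) (b : TorsRep p y) (ha : a.f = bc u) (hb : b.f = bc v) :
    weil p x y = 1 := by
  classical
  have hpZ : (p : ℤ) ≠ 0 := by exact_mod_cast hp.ne'
  choose c hcP hcC using C1
  set Sg : Finset (Subring F₀) := a.D.support.image c with hSg
  have hSgP : ∀ R ∈ Sg, R ∈ Pts := by
    intro R hR
    obtain ⟨P, -, rfl⟩ := Finset.mem_image.1 hR
    exact hcP P
  obtain ⟨h, hh0, hh⟩ := move Sg v hSgP fun R hR => F3 R (hSgP R hR)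
  obtain ⟨G, hG⟩ := exists_isDivOf (K := K) (bc h) ((map_ne_zero bc).2 hh0)
  have hb' : (b.move (bc h) G hG).f = bc (v * h ^ p) := by
    show bc h ^ p * b.f = _
    rw [hb, map_mul, map_pow, mul_comm]
  have ht : ∀ R : Subring F₀, ∃ t : 𝒜, R ∈ Sg → ∀ P : Place K F, Cen 𝒜 bc P R →
      𝒜.valuation (ev P (bc (v * h ^ p)) - (t : K)) < 1 := by
    intro R
    by_cases hR : R ∈ Sg
    · obtain ⟨a₀, ha₀, hr⟩ := res R (hSgP R hR) _ (hh R hR).mem
      refine ⟨⟨algebraMap K₀ K a₀, hA₀ a₀ ha₀⟩, fun _ P hP => ?_⟩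
      have := hP.sub_lt (hh R hR).mem (cst R (hSgP R hR) a₀ ha₀) hr
      rwa [hbc, ev_algebraMap] at this
    · exact ⟨1, fun h => absurd h hR⟩
  choose t ht using ht
  refine weil_eq_one_of_tubes 𝒜 hp hpA a (b.move (bc h) G hG) {P | c P ∈ Sg} ?_ ?_ ?_
    (Sg.image t) ?_
  · intro Q hQ
    exact Finset.mem_image_of_mem c (Finsupp.mem_support_iff.2 hQ)
  · intro P hP
    have hall : ∀ P' : Place K F, Cen 𝒜 bc P' (c P) → P'.ord (bc u) = 0 := by
      intro P' hP'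
      by_contra hne
      apply hP
      have h1 : c P' = c P := C2 P' _ _ (hcP P') (hcP P) (hcC P') hP'
      have h2 : a.D P' ≠ 0 := by
        intro h0
        have := a.div.2 P'
        rw [Finsupp.smul_apply, h0, smul_zero, ha] at this
        exact hne this.symm
      show c P ∈ Sg
      rw [← h1]
      exact Finset.mem_image_of_mem c (Finsupp.mem_support_iff.2 h2)
    have hu1 := U (c P) (hcP P) hall
    rw [ha]
    refine ⟨hall P (hcC P), ?_⟩
    have hone : (1 : F₀) ∈ c P := (c P).one_mem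
    have hu : u ∈ c P := by
      have := (c P).add_mem hu1.1 hone
      rwa [sub_add_cancel] at this
    have := (hcC P).sub_lt hu hone hu1
    rwa [map_one, ← map_one (algebraMap K F), ev_algebraMap] at this
  · intro P hP
    rw [hb']
    exact (hcC P).unit (hh _ hP)
  · intro P hP
    rw [hb']
    exact ⟨t (c P), Finset.mem_image_of_mem t hP, ht _ hP P (hcC P)⟩

end Fermat.Agent.S43.E0.Iso

end
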